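import Fermat.Agent.PadicHodge.Rep
import Fermat.Agent.PadicHodge.Criterion
import Mathlib.Data.Matrix.Block

/-!
# Extensions of Hodge–Tate representations

By Tate's vanishing of `H¹ (ℂ_p (j))` for `j ≠ 0` an extension of two Hodge–Tate representations
without common weight is Hodge–Tate.
-/

set_option autoImplicit false
set_option linter.unusedSectionVars false

noncomputable section

open Finset FA.TateSen FA.Sen FA.PadicHodge
open scoped Matrix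

namespace FA.PadicExt

variable {p : ℕ} [hp : Fact p.Prime]

local notation "Cp" => ℂ_[p]
local notation "G" => PadicAlgCl p ≃ₐ[ℚ_[p]] PadicAlgCl p

variable {d₁ d₂ : Type} [Fintype d₁] [DecidableEq d₁] [Fintype d₂] [DecidableEq d₂]

theorem galM_fromBlocks (σ : G) (A : Matrix d₁ d₁ Cp) (B : Matrix d₁ d₂ Cp) (D : Matrix d₂ d₂ Cp) :
    galM σ (Matrix.fromBlocks A B 0 D) =
      Matrix.fromBlocks (galM σ A) (B.map (gal σ)) 0 (galM σ D) := by
  rw [galM, RingHom.mapMatrix_apply, Matrix.fromBlocks_map, Matrix.map_zero _ (map_zero _)]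
  rfl

/-- A triangular representation with diagonal blocks sums of twists of different weights. -/
theorem isHodgeTate_of_twists {j₁ : d₁ → ℤ} {j₂ : d₂ → ℤ} (hne : ∀ i k, j₁ i ≠ j₂ k)
    {c : G → Matrix d₁ d₂ Cp}
    (hU : IsRep p (d₁ ⊕ d₂) fun σ => Matrix.fromBlocks (twistRep j₁ σ) (c σ) 0 (twistRep j₂ σ)) :
    ∃ P : (Matrix (d₁ ⊕ d₂) (d₁ ⊕ d₂) Cp)ˣ, ∀ σ,
      FA.Sen.conj (fun σ => Matrix.fromBlocks (twistRep j₁ σ) (c σ) 0 (twistRep j₂ σ)) P σ =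
        twistRep (Sum.elim j₁ j₂) σ := by
  have hc : ∀ σ τ i k, c (σ * τ) i k =
      twist p (j₁ i) σ * gal σ (c τ i k) + c σ i k * twist p (j₂ k) τ := fun σ τ i k => by
    have h := congrFun (congrFun (hU.cocycle σ τ) (Sum.inl i)) (Sum.inr k)
    simp only [galM_fromBlocks, Matrix.fromBlocks_multiply, Matrix.fromBlocks_apply₁₂,
      Matrix.add_apply, twistRep, galM_diagonal, Matrix.diagonal_mul, Matrix.mul_diagonal,
      Matrix.map_apply, gal_twist] at h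
    exact h
  have hcont : ∀ i k, Continuous fun σ => c σ i k := fun i k => by
    have h := (continuous_apply (Sum.inr k)).comp ((continuous_apply (Sum.inl i)).comp hU.cont)
    exact h
  have hy : ∀ i k, ∃ y : Cp, ∀ σ,
      c σ i k = twist p (j₁ i) σ * gal σ y - y * twist p (j₂ k) σ := fun i k => by
    obtain ⟨y, hy⟩ := exists_coboundary (sub_ne_zero.2 (hne i k))
      (f := fun σ => c σ i k * twist p (-j₂ k) σ)
      ⟨(hcont i k).mul (continuous_twist _), fun σ τ => by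
        rw [hc, sub_eq_add_neg (j₁ i), twist_add, map_mul, gal_twist, twist_mul]
        linear_combination (c σ i k * twist p (-j₂ k) σ) * twist_inv_mul (j₂ k) τ⟩
    refine ⟨y, fun σ => ?_⟩
    have h1 := hy σ
    rw [coboundary, sub_eq_add_neg (j₁ i), twist_add] at h1
    linear_combination twist p (j₂ k) σ * h1 -
      (c σ i k - twist p (j₁ i) σ * gal σ y) * twist_inv_mul (j₂ k) σ
  choose y hy using hy
  set Y : Matrix d₁ d₂ Cp := Matrix.of fun i k => -y i k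
  set P : Matrix (d₁ ⊕ d₂) (d₁ ⊕ d₂) Cp := Matrix.fromBlocks 1 Y 0 1
  obtain ⟨Pu, hPu⟩ : IsUnit P := by
    refine (Matrix.isUnit_iff_isUnit_det _).2 ?_
    rw [Matrix.det_fromBlocks_zero₂₁, Matrix.det_one, Matrix.det_one, mul_one]
    exact isUnit_one
  refine ⟨Pu, fun σ => ?_⟩
  rw [conj_eq_iff, hPu]
  simp only [P, galM_fromBlocks, map_one, twistRep, Matrix.fromBlocks_multiply, ← Sum.elim_comp_inl]
  rw [show (Matrix.diagonal fun i => twist p (Sum.elim j₁ j₂ i) σ) =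
    Matrix.fromBlocks (Matrix.diagonal fun i => twist p (j₁ i) σ) 0 0
      (Matrix.diagonal fun k => twist p (j₂ k) σ) by
    rw [Matrix.fromBlocks_diagonal]
    exact congrArg Matrix.diagonal (funext fun x => by cases x <;> rfl)]
  rw [Matrix.fromBlocks_multiply]
  congr 1 <;> simp only [Matrix.mul_one, Matrix.one_mul, Matrix.mul_zero, Matrix.zero_mul,
    add_zero, zero_add]
  refine Matrix.ext fun i k => ?_
  simp only [Matrix.add_apply, Matrix.diagonal_mul, Matrix.mul_diagonal, Matrix.map_apply, Y,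
    Matrix.of_apply, map_neg]
  linear_combination hy i k σ

/-- **An extension of Hodge–Tate representations without common weight is Hodge–Tate.** -/
theorem isHodgeTate_fromBlocks {U₁ : G → Matrix d₁ d₁ Cp} {U₂ : G → Matrix d₂ d₂ Cp}
    {c : G → Matrix d₁ d₂ Cp} {P₁ : (Matrix d₁ d₁ Cp)ˣ} {P₂ : (Matrix d₂ d₂ Cp)ˣ}
    {j₁ : d₁ → ℤ} {j₂ : d₂ → ℤ}
    (hU : IsRep p (d₁ ⊕ d₂) fun σ => Matrix.fromBlocks (U₁ σ) (c σ) 0 (U₂ σ))
    (h₁ : ∀ σ, FA.Sen.conj U₁ P₁ σ = twistRep j₁ σ)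
    (h₂ : ∀ σ, FA.Sen.conj U₂ P₂ σ = twistRep j₂ σ) (hne : ∀ i k, j₁ i ≠ j₂ k) :
    ∃ P : (Matrix (d₁ ⊕ d₂) (d₁ ⊕ d₂) Cp)ˣ, ∀ σ,
      FA.Sen.conj (fun σ => Matrix.fromBlocks (U₁ σ) (c σ) 0 (U₂ σ)) P σ =
        twistRep (Sum.elim j₁ j₂) σ := by
  set U : G → Matrix (d₁ ⊕ d₂) (d₁ ⊕ d₂) Cp := fun σ => Matrix.fromBlocks (U₁ σ) (c σ) 0 (U₂ σ)
  set Q : (Matrix (d₁ ⊕ d₂) (d₁ ⊕ d₂) Cp)ˣ :=
    ⟨Matrix.fromBlocks P₁ 0 0 P₂,
      Matrix.fromBlocks (↑P₁⁻¹ : Matrix d₁ d₁ Cp) 0 0 (↑P₂⁻¹ : Matrix d₂ d₂ Cp),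
      by simp [Matrix.fromBlocks_multiply, Matrix.fromBlocks_one],
      by simp [Matrix.fromBlocks_multiply, Matrix.fromBlocks_one]⟩
  have e : FA.Sen.conj U Q = fun σ => Matrix.fromBlocks (twistRep j₁ σ)
      ((↑P₁⁻¹ : Matrix d₁ d₁ Cp) * c σ * galM σ (P₂ : Matrix d₂ d₂ Cp)) 0 (twistRep j₂ σ) := by
    funext σ
    have h3 : galM σ (Q : Matrix (d₁ ⊕ d₂) (d₁ ⊕ d₂) Cp) =
        Matrix.fromBlocks (galM σ (P₁ : Matrix d₁ d₁ Cp)) 0 0
          (galM σ (P₂ : Matrix d₂ d₂ Cp)) := by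
      rw [show (Q : Matrix (d₁ ⊕ d₂) (d₁ ⊕ d₂) Cp) = Matrix.fromBlocks P₁ 0 0 P₂ from rfl,
        galM_fromBlocks, Matrix.map_zero _ (map_zero _)]
    rw [← h₁ σ, ← h₂ σ]
    simp only [FA.Sen.conj, h3, U, show (↑Q⁻¹ : Matrix (d₁ ⊕ d₂) (d₁ ⊕ d₂) Cp) =
      Matrix.fromBlocks (↑P₁⁻¹ : Matrix d₁ d₁ Cp) 0 0 (↑P₂⁻¹ : Matrix d₂ d₂ Cp) from rfl,
      Matrix.fromBlocks_multiply, Matrix.mul_zero, Matrix.zero_mul, add_zero, zero_add,
      Matrix.mul_assoc]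
  obtain ⟨P, hP⟩ := isHodgeTate_of_twists hne (e ▸ hU.conj Q)
  exact ⟨Q * P, fun σ => by rw [← conj_conj, e]; exact hP σ⟩

end FA.PadicExt
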