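import Fermat.Agent.PadicHodge.Period
import Fermat.Agent.PadicHodge.DeRham
import Fermat.Agent.PadicCharacters.Periods
import Mathlib.LinearAlgebra.Matrix.Notation

/-!
# Kummer cocycles and the period `log ([q̃] / q)`

The cocycle of a system of `p`-power roots of `q` becomes, in `B_dR⁺`, the boundary of the
logarithm of `[q̃] / q` divided by `t`, so the extension of `ℚ_p` by `ℚ_p (1)` it defines is de
Rham.
-/

set_option autoImplicit false
set_option linter.unusedSectionVars false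

noncomputable section

open Ideal Finset Filter UniformSpace FA.TateSen FA.FontaineWintenberger FA.BDR FA.Sen
  FA.PadicHodge FA.PadicChar WittVector
open scoped Topology Matrix

namespace FA.PadicExt

variable {p : ℕ} [hp : Fact p.Prime]

local notation "Cp" => ℂ_[p]
local notation "Ω" => PadicAlgCl p
local notation "G" => PadicAlgCl p ≃ₐ[ℚ_[p]] PadicAlgCl p
local notation "ι" => algebraMap (BPlus p) (BField p)

/-- A compatible system of residues gives a `p`-adic integer. -/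
theorem exists_padicInt_of_compat (k : ℕ → ℕ)
    (h : ∀ n, (k (n + 1) : ZMod (p ^ n)) = (k n : ZMod (p ^ n))) :
    ∃ c : ℤ_[p], ∀ n, c.toZModPow n = (k n : ZMod (p ^ n)) := by
  have h' : ∀ n m, n ≤ m → (k m : ZMod (p ^ n)) = k n := fun n m hnm => by
    induction m, hnm using Nat.le_induction with
    | base => rfl
    | succ m hm ih =>
      rw [← ih, ZMod.natCast_eq_natCast_iff]
      exact ((ZMod.natCast_eq_natCast_iff _ _ _).1 (h m)).of_dvd (pow_dvd_pow p hm)
  have hd : ∀ n m, n ≤ m → ‖(k m : ℤ_[p]) - k n‖ ≤ (p : ℝ) ^ (-(n : ℤ)) := fun n m hnm => by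
    rw [PadicInt.norm_le_pow_iff_mem_span_pow, ← PadicInt.ker_toZModPow, RingHom.mem_ker, map_sub,
      map_natCast, map_natCast, h' n m hnm, sub_self]
  have hc : CauchySeq fun n => (k n : ℤ_[p]) := by
    refine Metric.cauchySeq_iff'.2 fun ε hε => ?_
    obtain ⟨N, hN⟩ := exists_pow_lt_of_lt_one hε
      (inv_lt_one_of_one_lt₀ (Nat.one_lt_cast.2 hp.out.one_lt : (1 : ℝ) < p))
    refine ⟨N, fun n hn => ?_⟩
    rw [dist_eq_norm]
    refine (hd N n hn).trans_lt ?_
    rwa [zpow_neg, zpow_natCast, ← inv_pow]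
  obtain ⟨c, hc⟩ := cauchySeq_tendsto_of_complete hc
  refine ⟨c, fun n => ?_⟩
  have h1 : ‖c - k n‖ ≤ (p : ℝ) ^ (-(n : ℤ)) :=
    le_of_tendsto (hc.sub_const _).norm (eventually_atTop.2 ⟨n, fun m hm => hd n m hm⟩)
  rwa [PadicInt.norm_le_pow_iff_mem_span_pow, ← PadicInt.ker_toZModPow, RingHom.mem_ker, map_sub,
    map_natCast, sub_eq_zero] at h1

theorem pow_eq_pow_of_natCast_eq {M : Type*} [Monoid M] {w : M} {N a b : ℕ} (hw : w ^ N = 1)
    (h : (a : ZMod N) = b) : w ^ a = w ^ b := by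
  rw [ZMod.natCast_eq_natCast_iff] at h
  rw [pow_eq_pow_mod a hw, pow_eq_pow_mod b hw, h]

theorem primitive_eps (n : ℕ) : IsPrimitiveRoot ((eps p).seq n) (p ^ n) := by
  rw [eps_seq]
  exact (zetaSeq_primitive n).map_of_injective (f := (Completion.coeRingHom : Ω →+* Cp))
    (Completion.coe_injective Ω)

theorem natCast_eq_of_eps_pow_eq {n a b : ℕ} (h : (eps p).seq n ^ a = (eps p).seq n ^ b) :
    (a : ZMod (p ^ n)) = b := by
  have hw := (primitive_eps (p := p) n).pow_eq_one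
  rw [ZMod.natCast_eq_natCast_iff, Nat.ModEq]
  rw [pow_eq_pow_mod a hw, pow_eq_pow_mod b hw] at h
  exact (primitive_eps n).pow_inj (Nat.mod_lt _ (pow_pos hp.out.pos n))
    (Nat.mod_lt _ (pow_pos hp.out.pos n)) h

theorem gal_eps (σ : G) (n : ℕ) :
    gal σ ((eps p).seq n) = (eps p).seq n ^ ((chi p σ : ℤ_[p]).toZModPow n).val := by
  rw [eps_seq, gal_coe, apply_root σ (zetaSeq_primitive n).pow_eq_one]
  exact map_pow Completion.coeRingHom _ _

/-- A compatible system of `p`-power roots of an element of `ℚ_p`. -/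
def IsKummerSystem (q : ℚ_[p]) (x : Flat p) : Prop := x.seq 0 = algebraMap ℚ_[p] Cp q

theorem exists_kummerSystem (q : ℚ_[p]) : ∃ x, IsKummerSystem q x :=
  exists_seq_zero_eq (algebraMap ℚ_[p] Cp q)

theorem seq_ne_zero {q : ℚ_[p]} {x : Flat p} (hx : IsKummerSystem q x) (hq : q ≠ 0) (n : ℕ) :
    x.seq n ≠ 0 := fun h => by
  have h1 := seq_zero_pow x n
  rw [h, zero_pow (pow_ne_zero n hp.out.ne_zero), hx, eq_comm, map_eq_zero] at h1
  exact hq h1

theorem exists_kummer_exponent {q : ℚ_[p]} {x : Flat p} (hx : IsKummerSystem q x) (hq : q ≠ 0)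
    (σ : G) :
    ∃ c : ℤ_[p], ∀ n, gal σ (x.seq n) = x.seq n * (eps p).seq n ^ (c.toZModPow n).val := by
  have hk : ∀ n, ∃ k, gal σ (x.seq n) = x.seq n * (eps p).seq n ^ k := fun n => by
    have : NeZero (p ^ n) := ⟨pow_ne_zero n hp.out.ne_zero⟩
    have h : (gal σ (x.seq n) / x.seq n) ^ p ^ n = 1 := by
      rw [div_pow, ← map_pow, seq_zero_pow, hx, gal_scalar,
        div_self ((map_ne_zero (algebraMap ℚ_[p] Cp)).2 hq)]
    obtain ⟨i, -, hi⟩ := (primitive_eps n).eq_pow_of_pow_eq_one h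
    exact ⟨i, by rw [hi, mul_div_cancel₀ _ (seq_ne_zero hx hq n)]⟩
  choose k hk using hk
  obtain ⟨c, hc⟩ := exists_padicInt_of_compat k fun n => natCast_eq_of_eps_pow_eq (p := p) (by
    have h := congrArg (· ^ p) (hk (n + 1))
    rw [← map_pow, mul_pow, pow_right_comm, seq_pow, seq_pow, hk n] at h
    exact (mul_left_cancel₀ (seq_ne_zero hx hq n) h).symm)
  refine ⟨c, fun n => ?_⟩
  have : NeZero (p ^ n) := ⟨pow_ne_zero n hp.out.ne_zero⟩
  rw [hk n]
  exact congrArg (x.seq n * ·) (pow_eq_pow_of_natCast_eq (primitive_eps n).pow_eq_one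
    (by rw [ZMod.natCast_val, ZMod.cast_id, hc]))

variable {q : ℚ_[p]} {x : Flat p}

/-- **The Kummer cocycle.** -/
def kummer (hx : IsKummerSystem q x) (hq : q ≠ 0) (σ : G) : ℤ_[p] :=
  (exists_kummer_exponent hx hq σ).choose

theorem kummer_spec (hx : IsKummerSystem q x) (hq : q ≠ 0) (σ : G) (n : ℕ) :
    gal σ (x.seq n) = x.seq n * (eps p).seq n ^ ((kummer hx hq σ).toZModPow n).val :=
  (exists_kummer_exponent hx hq σ).choose_spec n

theorem kummer_eq (hx : IsKummerSystem q x) (hq : q ≠ 0) {σ : G} {d : ℤ_[p]}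
    (h : ∀ n, gal σ (x.seq n) = x.seq n * (eps p).seq n ^ (d.toZModPow n).val) :
    kummer hx hq σ = d := PadicInt.ext_of_toZModPow.1 fun n => by
  have : NeZero (p ^ n) := ⟨pow_ne_zero n hp.out.ne_zero⟩
  have h1 := natCast_eq_of_eps_pow_eq (p := p)
    (mul_left_cancel₀ (seq_ne_zero hx hq n) ((kummer_spec hx hq σ n).symm.trans (h n)))
  rwa [ZMod.natCast_val, ZMod.natCast_val, ZMod.cast_id, ZMod.cast_id] at h1

theorem kummer_one (hx : IsKummerSystem q x) (hq : q ≠ 0) : kummer hx hq 1 = 0 :=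
  kummer_eq hx hq fun n => by rw [gal_one, map_zero, ZMod.val_zero, pow_zero, mul_one]

theorem kummer_mul (hx : IsKummerSystem q x) (hq : q ≠ 0) (σ τ : G) :
    kummer hx hq (σ * τ) = kummer hx hq σ + (chi p σ : ℤ_[p]) * kummer hx hq τ := by
  refine kummer_eq hx hq fun n => ?_
  have : NeZero (p ^ n) := ⟨pow_ne_zero n hp.out.ne_zero⟩
  rw [gal_mul, kummer_spec hx hq τ n, map_mul, kummer_spec hx hq σ n, map_pow, gal_eps, ← pow_mul,
    mul_assoc, ← pow_add]
  refine congrArg (x.seq n * ·) (pow_eq_pow_of_natCast_eq (primitive_eps n).pow_eq_one ?_)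
  simp only [Nat.cast_add, Nat.cast_mul, ZMod.natCast_val, ZMod.cast_id, map_add, map_mul, mul_comm]

theorem continuous_kummer (hx : IsKummerSystem q x) (hq : q ≠ 0) :
    Continuous (kummer hx hq) := by
  rw [continuous_iff_continuousAt]
  intro σ
  rw [ContinuousAt, Metric.tendsto_nhds]
  intro ε hε
  obtain ⟨n, hn⟩ := exists_pow_lt_of_lt_one hε
    (inv_lt_one_of_one_lt₀ (Nat.one_lt_cast.2 hp.out.one_lt : (1 : ℝ) < p))
  set S := {w : Cp | w ^ p ^ n = algebraMap ℚ_[p] Cp q}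
  have hS : S.Finite := (Polynomial.finite_setOfPred_isRoot (Polynomial.X_pow_sub_C_ne_zero
    (pow_pos hp.out.pos n) (algebraMap ℚ_[p] Cp q))).subset fun w hw => by
      show Polynomial.IsRoot _ w
      rw [Polynomial.IsRoot, Polynomial.eval_sub, Polynomial.eval_pow, Polynomial.eval_X,
        Polynomial.eval_C, sub_eq_zero]
      exact hw
  have hmem : (fun τ : G => gal τ (x.seq n)) ⁻¹' (S \ {gal σ (x.seq n)})ᶜ ∈ 𝓝 σ :=
    (((hS.sdiff (t := {gal σ (x.seq n)})).isClosed.isOpen_compl).preimage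
      (continuous_gal_apply _)).mem_nhds (fun h => h.2 rfl)
  filter_upwards [hmem] with τ hτ
  have hτS : gal τ (x.seq n) ∈ S := by
    show gal τ (x.seq n) ^ p ^ n = _
    rw [← map_pow, seq_zero_pow, hx, gal_scalar]
  have h2 : gal τ (x.seq n) = gal σ (x.seq n) := by
    by_contra hne
    exact hτ ⟨hτS, hne⟩
  rw [kummer_spec hx hq τ n, kummer_spec hx hq σ n] at h2
  have : NeZero (p ^ n) := ⟨pow_ne_zero n hp.out.ne_zero⟩
  have h3 := natCast_eq_of_eps_pow_eq (p := p) (mul_left_cancel₀ (seq_ne_zero hx hq n) h2)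
  rw [ZMod.natCast_val, ZMod.natCast_val, ZMod.cast_id, ZMod.cast_id, ← sub_eq_zero, ← map_sub,
    ← RingHom.mem_ker, PadicInt.ker_toZModPow, ← PadicInt.norm_le_pow_iff_mem_span_pow] at h3
  rw [dist_eq_norm]
  refine h3.trans_lt ?_
  rwa [zpow_neg, zpow_natCast, ← inv_pow]

/-- The exponential reaches everything congruent to one. -/
theorem exists_expQ_eq (n : ℕ) {z : BQuot p n} (hz : InPi p n (z - 1)) :
    ∃ s, InPi p n s ∧ IsNilpotent.exp s = z := by
  suffices h : ∀ j, ∃ s, InPi p n s ∧ mkQ p n (piMu p) ^ (j + 1) ∣ z - IsNilpotent.exp s by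
    obtain ⟨s, hs, hd⟩ := h n
    rw [pow_succ, ← map_pow, mkQ_eq_zero_iff.2 dvd_rfl, zero_mul, zero_dvd_iff, sub_eq_zero] at hd
    exact ⟨s, hs, hd.symm⟩
  intro j
  induction j with
  | zero => exact ⟨0, dvd_zero _, by rwa [IsNilpotent.exp_zero, zero_add, pow_one]⟩
  | succ j ih =>
    obtain ⟨s, hs, hd⟩ := ih
    set δ := z - IsNilpotent.exp s with hδ'
    have hδ : InPi p n δ := (dvd_pow_self _ j.succ_ne_zero).trans hd
    obtain ⟨a, ha⟩ := (self_dvd_exp_sub_one hδ).2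
    obtain ⟨b, hb⟩ := (self_dvd_exp_sub_one hs).1
    refine ⟨s + δ, dvd_add hs hδ, ?_⟩
    rw [IsNilpotent.exp_add_of_commute (Commute.all _ _) hs.isNilpotent hδ.isNilpotent,
      show z - IsNilpotent.exp s * IsNilpotent.exp δ =
        -(IsNilpotent.exp s * (δ * δ * a) + s * b * δ) by
      linear_combination (-IsNilpotent.exp s) * ha + (-δ) * hb + (-1 : BQuot p n) * hδ']
    refine dvd_neg.2 (dvd_add (dvd_mul_of_dvd_right (dvd_mul_of_dvd_left ?_ a) _) ?_)
    · rw [pow_succ]; exact mul_dvd_mul hd hδ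
    · rw [pow_succ']; exact mul_dvd_mul (dvd_mul_of_dvd_left hs b) hd

theorem inPi_smul {n : ℕ} {t : BPlus p} (h : InPi p n (mkQ p n t)) (σ : G) :
    InPi p n (mkQ p n (σ • t)) := by
  let fσ : BQuot p n →+* BQuot p n :=
    Ideal.quotientMap _ (bplusGal σ) (span_piMu_pow_le σ n)
  obtain ⟨r, hr⟩ := h
  obtain ⟨a, ha, -⟩ := exists_smul_piMu σ
  change mkQ p n (piMu p) ∣ fσ (mkQ p n t)
  rw [hr, map_mul, show fσ (mkQ p n (piMu p)) = mkQ p n (σ • piMu p) from rfl, ha, map_mul]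
  exact dvd_mul_of_dvd_left (dvd_mul_left _ _) _

/-- `σ` moves the system by a power of `ε` and a `p ^ n`-th power with trivial untilt. -/
theorem exists_split (hx : IsKummerSystem q x) (hq : q ≠ 0) (h1 : ‖x‖ ≤ 1) (σ : G) (n : ℕ) :
    ∃ y : OFlat p, PreTilt.untilt y = 1 ∧ oflatGal σ (ofFlat x h1) =
      ofFlat x h1 * eFlat p ^ ((kummer hx hq σ).toZModPow n).val * y ^ p ^ n := by
  set k := ((kummer hx hq σ).toZModPow n).val
  have hx0 : x ≠ 0 := fun h => seq_ne_zero hx hq 0 (by rw [h, seq_zero])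
  have he0 : eps p ≠ 0 := fun h => zero_ne_one (α := ℝ) (by rw [← norm_eps (p := p), h, norm_zero])
  have hd0 : x * eps p ^ k ≠ 0 := mul_ne_zero hx0 (pow_ne_zero k he0)
  set z := flatGal σ x / (x * eps p ^ k)
  have hz1 : ‖z‖ = 1 := by
    rw [norm_div, norm_mul, norm_pow, norm_flatGal, norm_eps, one_pow, mul_one,
      div_self (norm_ne_zero_iff.2 hx0)]
  have hzy : ‖pthRoot'^[n] z‖ ≤ 1 := by
    refine (pow_le_one_iff_of_nonneg (norm_nonneg (pthRoot'^[n] z))
      (pow_ne_zero n hp.out.ne_zero)).1 ?_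
    rw [← norm_pow, pthRoot'_iter_pow, hz1]
  refine ⟨ofFlat _ hzy, Subtype.ext ?_, toFlat_injective ?_⟩
  · rw [untilt_eq_seq, toFlat_ofFlat, pthRoot'_iter_seq, zero_add, OneMemClass.coe_one]
    refine mul_right_cancel₀ (b := (x * eps p ^ k).seq n) (fun h0 => hd0 (seq_eq_zero h0)) ?_
    rw [← seq_mul, div_mul_cancel₀ _ hd0, flatGal_seq, one_mul, seq_mul, seq_pow_nat,
      kummer_spec hx hq σ n]
  · rw [toFlat_oflatGal, map_mul, map_mul, map_pow, map_pow, eFlat, toFlat_ofFlat, toFlat_ofFlat,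
      toFlat_ofFlat, pthRoot'_iter_pow, mul_div_cancel₀ _ hd0]

theorem exists_kummer_log_of_le (hx : IsKummerSystem q x) (hq : q ≠ 0) (h1 : ‖x‖ ≤ 1) :
    ∃ L : BPlus p, (∀ n, InPi p n (mkQ p n L) ∧ IsNilpotent.exp (mkQ p n L) =
        imgA p n (teichmuller p (ofFlat x h1)) * mkQ p n (qpHom p q⁻¹)) ∧
      ∀ σ : G, σ • L = L + qpHom p (kummer hx hq σ : ℚ_[p]) * tPeriod p := by
  set A : AInf p := teichmuller p (ofFlat x h1)
  set Z : BPlus p := toBPlus p (algebraMap _ _ A) * qpHom p q⁻¹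
  have hZ : piMu p ∣ Z - 1 := by
    rw [piMu_dvd_iff, map_sub, map_mul, thetaPlus_toBPlus, thetaC_algebraMap, theta_teichmuller,
      untilt_eq_seq, toFlat_ofFlat, hx, thetaPlus_qpHom, ← map_mul, mul_inv_cancel₀ hq, map_one,
      map_one, sub_self]
  have hzn : ∀ n, imgA p n A * mkQ p n (qpHom p q⁻¹) = mkQ p n Z := fun n => by
    rw [imgA, RingHom.comp_apply, ← map_mul]
    rfl
  have h : ∀ n, ∃ b : BPlus p,
      InPi p n (mkQ p n b) ∧ IsNilpotent.exp (mkQ p n b) = mkQ p n Z := fun n => by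
    obtain ⟨s, hs, he⟩ := exists_expQ_eq n (z := mkQ p n Z)
      (show InPi p n _ by rw [InPi, ← map_one (mkQ p n), ← map_sub]; exact map_dvd _ hZ)
    obtain ⟨b, rfl⟩ := Ideal.Quotient.mk_surjective s
    exact ⟨b, hs, he⟩
  choose b hb hbe using h
  obtain ⟨L, hL⟩ := exists_limit_bPlus b fun m n hmn => by
    rw [← piMu_pow_dvd_iff, ← mkQ_eq_zero_iff, map_sub, sub_eq_zero]
    let f : BQuot p n →+* BQuot p m := Ideal.Quotient.factor
      (span_singleton_le_span_singleton.2 (pow_dvd_pow (piMu p) hmn))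
    have hf : ∀ x, f (mkQ p n x) = mkQ p m x := fun _ => rfl
    have hpi : InPi p m (mkQ p m (b n)) := by
      have h1 := map_dvd f (hb n)
      rw [hf, hf] at h1
      exact h1
    refine expQ_injective (hb m) hpi ?_
    rw [hbe m, ← hf (b n), ← IsNilpotent.map_exp (hb n).isNilpotent f, hbe n, hf]
  have hLn : ∀ n, InPi p n (mkQ p n L) ∧ IsNilpotent.exp (mkQ p n L) = mkQ p n Z := fun n => by
    have e : mkQ p n L = mkQ p n (b n) := by
      rw [← sub_eq_zero, ← map_sub, mkQ_eq_zero_iff, piMu_pow_dvd_iff]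
      exact hL n
    rw [e]
    exact ⟨hb n, hbe n⟩
  refine ⟨L, fun n => ⟨(hLn n).1, by rw [hzn, (hLn n).2]⟩, fun σ => ?_⟩
  refine sub_eq_zero.1 (eq_zero_of_dvd_completion _ _ bdrIdeal_eq fun n => ?_)
  change piBDR p ^ n ∣ _
  rw [← piMu_pow_dvd_iff, ← mkQ_eq_zero_iff]
  obtain ⟨c, hc⟩ := exists_logQ (p := p) n
  have ht : Bdd p n c (mkQ p n (tPeriod p)) := by
    obtain ⟨s, hs, hsb, he⟩ := hc _ (exists_one_add_xi_mul n)
    rwa [expQ_injective (inPi_tPeriod n) hs (by rw [exp_tPeriod, he])]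
  obtain ⟨at_, hat⟩ := ht
  refine eq_zero_of_bdd (c := c) fun N => ?_
  set P : ℕ := p ^ N
  set k := ((kummer hx hq σ).toZModPow N).val
  obtain ⟨y, hy, hsplit⟩ := exists_split hx hq h1 σ N
  obtain ⟨w, hw⟩ := exists_mul_of_untilt_one hy
  obtain ⟨s, hs, ⟨as, has⟩, hse⟩ := hc (imgA p n (teichmuller p y))
    ⟨w, by rw [← hw, map_sub, map_one, add_sub_cancel]⟩
  let fσ : BQuot p n →+* BQuot p n :=
    Ideal.quotientMap _ (bplusGal σ) (span_piMu_pow_le σ n)
  have hfσ : ∀ x, fσ (mkQ p n x) = mkQ p n (σ • x) := fun _ => rfl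
  have hkt : InPi p n ((k : BQuot p n) * mkQ p n (tPeriod p)) :=
    dvd_mul_of_dvd_right (inPi_tPeriod n) _
  have hPs : InPi p n ((P : BQuot p n) * s) := dvd_mul_of_dvd_right hs _
  have hLn1 := (hLn n).1
  have heq : mkQ p n (σ • L) = mkQ p n L +
      ((k : BQuot p n) * mkQ p n (tPeriod p) + (P : BQuot p n) * s) := by
    refine expQ_injective (inPi_smul hLn1 σ) (dvd_add hLn1 (dvd_add hkt hPs)) ?_
    rw [IsNilpotent.exp_add_of_commute (Commute.all _ _) hLn1.isNilpotent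
      (InPi.isNilpotent (dvd_add hkt hPs)), IsNilpotent.exp_add_of_commute (Commute.all _ _)
      hkt.isNilpotent hPs.isNilpotent, expQ_nsmul (inPi_tPeriod n), expQ_nsmul hs, exp_tPeriod,
      hse, ← hfσ, ← IsNilpotent.map_exp hLn1.isNilpotent fσ, (hLn n).2, one_add_piMu, hfσ]
    simp only [Z, smul_mul', smul_qpHom]
    simp only [map_mul, smul_bplus_def, bplusGal_toBPlus, ainfPGal_algebraMap]
    rw [show ainfGal σ A = A * teichmuller p (eFlat p) ^ k * teichmuller p y ^ P by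
      rw [ainfGal, WittVector.map_teichmuller, hsplit, map_mul, map_mul, map_pow, map_pow]]
    simp only [map_mul, map_pow, imgA, RingHom.comp_apply]
    ring
  have hk : kummer hx hq σ - (k : ℤ_[p]) ∈ span {(p : ℤ_[p]) ^ N} := by
    have : NeZero (p ^ N) := ⟨pow_ne_zero N hp.out.ne_zero⟩
    rw [← PadicInt.ker_toZModPow, RingHom.mem_ker, map_sub, map_natCast, sub_eq_zero]
    exact (ZMod.natCast_zmod_val _).symm
  obtain ⟨e, he⟩ := mem_span_singleton.1 hk
  rw [sub_eq_iff_eq_add] at he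
  refine ⟨as - zpHom p e * at_, ?_⟩
  rw [map_sub, heq, map_add, map_mul, he, PadicInt.coe_add, PadicInt.coe_mul, PadicInt.coe_pow,
    PadicInt.coe_natCast, PadicInt.coe_natCast, map_add, map_mul, map_pow, map_natCast, map_natCast,
    map_add, map_mul, map_pow, map_natCast, map_natCast, map_sub (imgA p n), map_mul (imgA p n),
    ← has, ← hat, imgA_zpHom, show (P : BQuot p n) = (p : BQuot p n) ^ N by
      rw [Nat.cast_pow]]
  ring

/-- **The period of a Kummer cocycle.** -/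
theorem exists_kummer_log (hx : IsKummerSystem q x) (hq : q ≠ 0) :
    ∃ L : BPlus p, ∀ σ : G, σ • L = L + qpHom p (kummer hx hq σ : ℚ_[p]) * tPeriod p := by
  rcases le_total ‖x‖ 1 with h | h
  · obtain ⟨L, -, hL⟩ := exists_kummer_log_of_le hx hq h
    exact ⟨L, hL⟩
  · have hxi : IsKummerSystem q⁻¹ x⁻¹ := by rw [IsKummerSystem, seq_inv, hx, map_inv₀]
    obtain ⟨L, -, hL⟩ := exists_kummer_log_of_le hxi (inv_ne_zero hq)
      (by rw [norm_inv]; exact inv_le_one_of_one_le₀ h)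
    refine ⟨-L, fun σ => ?_⟩
    have e : kummer hxi (inv_ne_zero hq) σ = -kummer hx hq σ := kummer_eq hxi _ fun n => by
      have : NeZero (p ^ n) := ⟨pow_ne_zero n hp.out.ne_zero⟩
      rw [seq_inv, map_inv₀, kummer_spec hx hq σ n, mul_inv]
      refine congrArg ((x.seq n)⁻¹ * ·) (inv_eq_of_mul_eq_one_right ?_)
      rw [← pow_add, ← pow_zero ((eps p).seq n)]
      refine pow_eq_pow_of_natCast_eq (primitive_eps n).pow_eq_one ?_
      rw [Nat.cast_add, ZMod.natCast_val, ZMod.natCast_val, ZMod.cast_id, ZMod.cast_id, map_neg,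
        add_neg_cancel, Nat.cast_zero]
    rw [smul_neg, hL, e, PadicInt.coe_neg, map_neg]
    ring

/-- The extension of `ℚ_p` by `ℚ_p (1)` of a Kummer cocycle. -/
def kummerRep (hx : IsKummerSystem q x) (hq : q ≠ 0) (σ : G) : Matrix (Fin 2) (Fin 2) ℚ_[p] :=
  !![((chi p σ : ℤ_[p]) : ℚ_[p]), (kummer hx hq σ : ℚ_[p]); 0, 1]

theorem isQpRep_kummerRep (hx : IsKummerSystem q x) (hq : q ≠ 0) :
    IsQpRep p (Fin 2) (kummerRep hx hq) where
  cont := by
    have h0 : Continuous fun σ : G => (chi p σ : ℤ_[p]) :=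
      Units.continuous_val.comp continuous_chi
    have h1 : Continuous fun σ : G => ((chi p σ : ℤ_[p]) : ℚ_[p]) := continuous_subtype_val.comp h0
    have h2 : Continuous fun σ : G => (kummer hx hq σ : ℚ_[p]) :=
      continuous_subtype_val.comp (continuous_kummer hx hq)
    refine continuous_pi fun i => continuous_pi fun k => ?_
    fin_cases i <;> fin_cases k
    all_goals simp only [kummerRep]
    all_goals first
      | exact continuous_const
      | exact h1
      | exact h2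
  map_one := by
    rw [kummerRep, map_one, Units.val_one, PadicInt.coe_one, kummer_one, PadicInt.coe_zero]
    exact Matrix.one_fin_two.symm
  map_mul σ τ := by
    simp only [kummerRep, kummer_mul, Matrix.mul_fin_two, map_mul, Units.val_mul, PadicInt.coe_mul,
      PadicInt.coe_add]
    simp [add_comm]

/-- **The extensions given by Kummer cocycles are de Rham.** -/
theorem isDeRham_kummerRep (hx : IsKummerSystem q x) (hq : q ≠ 0) :
    IsDeRham (kummerRep hx hq) := by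
  obtain ⟨L, hL⟩ := exists_kummer_log hx hq
  obtain ⟨u, hu, -⟩ := exists_tPeriod_eq (p := p)
  set T : BField p := ι (tPeriod p)
  have hT : T ≠ 0 := (map_ne_zero_iff _ iota_injective).2 (by
    rw [hu]; exact mul_ne_zero piMu_ne_zero u.ne_zero)
  set X : Matrix (Fin 2) (Fin 2) (BField p) := !![T⁻¹, -ι L / T; 0, 1]
  obtain ⟨Xu, hXu⟩ : IsUnit X := by
    rw [Matrix.isUnit_iff_isUnit_det, Matrix.det_fin_two_of, mul_one, mul_zero, sub_zero]
    exact (inv_ne_zero hT).isUnit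
  refine ⟨Xu, fun σ => ?_⟩
  rw [hXu]
  set c := qpB p ((chi p σ : ℤ_[p]) : ℚ_[p]) with hc
  have hc0 : c ≠ 0 := (map_ne_zero_iff _ (qpB p).injective).2 (chi_ne_zero σ)
  have hσT : σ • T = c * T := by
    simp only [T, hc, qpB, RingHom.comp_apply, smul_algebraMap_bfield, smul_tPeriod, map_mul]
  have hσL : σ • ι L = ι L + qpB p (kummer hx hq σ : ℚ_[p]) * T := by
    simp only [T, qpB, RingHom.comp_apply, smul_algebraMap_bfield, hL, map_add, map_mul]
  have hi : σ • T⁻¹ = (c * T)⁻¹ := by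
    rw [← MulSemiringAction.toRingHom_apply, map_inv₀, MulSemiringAction.toRingHom_apply, hσT]
  ext i k
  fin_cases i <;> fin_cases k
  all_goals
    simp only [X, kummerRep, Matrix.mul_apply, Fin.sum_univ_two, Matrix.map_apply, Fin.zero_eta,
      Fin.mk_one, Matrix.cons_val_zero, Matrix.cons_val_one, Matrix.of_apply, Matrix.cons_val',
      Matrix.cons_val_fin_one, map_zero, map_one, smul_zero, smul_one, mul_zero, zero_mul,
      add_zero, zero_add, mul_one, ← hc, div_eq_mul_inv, smul_mul', smul_neg, hσL, hi]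
  all_goals field_simp
  all_goals ring

/-- **The Hodge–Tate weights `1` and `0`.** -/
theorem exists_conj_kummerRep (hx : IsKummerSystem q x) (hq : q ≠ 0) :
    ∃ P : (Matrix (Fin 2) (Fin 2) Cp)ˣ, ∀ σ, FA.Sen.conj (cpRep (kummerRep hx hq)) P σ =
      Matrix.diagonal fun i => twist p (![1, 0] i) σ := by
  have hal : Continuous (algebraMap ℚ_[p] Cp) := continuous_algebraMap _ _
  obtain ⟨y, hy⟩ := exists_coboundary (one_ne_zero : (1 : ℤ) ≠ 0)
    (f := fun σ : G => algebraMap ℚ_[p] Cp (kummer hx hq σ : ℚ_[p]))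
    ⟨hal.comp (continuous_subtype_val.comp (continuous_kummer hx hq)), fun σ τ => by
      rw [kummer_mul, PadicInt.coe_add, map_add, PadicInt.coe_mul, map_mul, gal_scalar, twist,
        zpow_one]⟩
  obtain ⟨P, hP⟩ : IsUnit (!![1, -y; 0, 1] : Matrix (Fin 2) (Fin 2) Cp) := by
    rw [Matrix.isUnit_iff_isUnit_det, Matrix.det_fin_two_of, mul_one, mul_zero, sub_zero]
    exact isUnit_one
  refine ⟨P, fun σ => conj_eq_iff.2 ?_⟩
  rw [hP]
  have h1 := hy σ
  simp only [coboundary, twist, zpow_one] at h1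
  ext i k
  fin_cases i <;> fin_cases k
  all_goals
    simp [cpRep, kummerRep, Matrix.mul_apply, Fin.sum_univ_two, galM_apply, twist, h1]
  all_goals ring

/-- **The cocycle of a non-unit is not a coboundary.** -/
theorem kummer_not_coboundary (hx : IsKummerSystem q x) (hq : q ≠ 0) (hq1 : ‖q‖ ≠ 1) :
    ¬ ∃ a : ℚ_[p], ∀ σ : G,
      (kummer hx hq σ : ℚ_[p]) = (((chi p σ : ℤ_[p]) : ℚ_[p]) - 1) * a := by
  rintro ⟨a, ha⟩
  obtain ⟨r, hr⟩ : ∃ r : ℕ, ‖(p : ℚ_[p]) ^ r * a‖ ≤ 1 := by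
    obtain ⟨r, hr⟩ := pow_unbounded_of_one_lt ‖a‖ (Nat.one_lt_cast.2 hp.out.one_lt : (1 : ℝ) < p)
    refine ⟨r, ?_⟩
    rw [norm_mul, norm_pow, Padic.norm_p, inv_pow,
      inv_mul_le_iff₀ (pow_pos (Nat.cast_pos.2 hp.out.pos) r), mul_one]
    exact hr.le
  set A : ℤ_[p] := ⟨_, hr⟩
  have key : ∀ σ, (p : ℤ_[p]) ^ r * kummer hx hq σ + (A - (chi p σ : ℤ_[p]) * A) = 0 := fun σ =>
    Subtype.ext (by
      simp only [PadicInt.coe_add, PadicInt.coe_sub, PadicInt.coe_mul, PadicInt.coe_pow,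
        PadicInt.coe_natCast, PadicInt.coe_zero, ha σ, A]
      ring)
  -- each `n` gives a rational element of absolute value a `p ^ n`-th root of that of `q ^ (p ^ r)`
  have hw : ∀ n, ∃ b : ℚ_[p], ‖b‖ ^ p ^ n = ‖q‖ ^ p ^ r := fun n => by
    have : NeZero (p ^ n) := ⟨pow_ne_zero n hp.out.ne_zero⟩
    set m := (-A).toZModPow n
    set w := x.seq n ^ p ^ r * (eps p).seq n ^ m.val
    obtain ⟨b, hb⟩ := (Fermat.Agent.AxSenTate.fixed_padicComplex_iff p w).1 fun σ => by
      rw [← gal_apply, map_mul, map_pow, map_pow, kummer_spec hx hq σ n, gal_eps, mul_pow,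
        mul_assoc, ← pow_mul, ← pow_mul, ← pow_add]
      refine congrArg (x.seq n ^ p ^ r * ·)
        (pow_eq_pow_of_natCast_eq (primitive_eps n).pow_eq_one ?_)
      simp only [Nat.cast_add, Nat.cast_mul, Nat.cast_pow, ZMod.natCast_val, ZMod.cast_id, m]
      rw [← map_natCast (PadicInt.toZModPow n) p, ← map_pow, ← map_mul, ← map_mul, ← map_add]
      congr 1
      linear_combination key σ
    refine ⟨b, ?_⟩
    have he : ‖(eps p).seq n‖ = 1 :=
      (pow_eq_one_iff_of_nonneg (norm_nonneg _) (pow_ne_zero n hp.out.ne_zero)).1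
        (by rw [← norm_pow, (primitive_eps n).pow_eq_one, norm_one])
    rw [← norm_algebraMap' Cp b, hb, norm_mul, norm_pow, norm_pow,
      he, one_pow, mul_one, ← pow_mul,
      mul_comm, pow_mul, ← norm_pow, seq_zero_pow, hx, norm_algebraMap']
  have hpR : (1 : ℝ) < p := Nat.one_lt_cast.2 hp.out.one_lt
  obtain ⟨n, hn⟩ := pow_unbounded_of_one_lt
    ((q.valuation * (p : ℤ) ^ r).natAbs : ℝ) hpR
  obtain ⟨b, hb⟩ := hw n
  have hb0 : b ≠ 0 := fun h0 => by
    rw [h0, norm_zero, zero_pow (pow_ne_zero n hp.out.ne_zero)] at hb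
    exact (pow_ne_zero _ (norm_ne_zero_iff.2 hq)) hb.symm
  rw [Padic.norm_eq_zpow_neg_valuation hb0, Padic.norm_eq_zpow_neg_valuation hq,
    ← zpow_natCast _ (p ^ n), ← zpow_natCast _ (p ^ r), ← zpow_mul, ← zpow_mul] at hb
  have h2 := zpow_right_injective₀ (by positivity) hpR.ne' hb
  push_cast at h2
  have h3 : ((p : ℤ) ^ n) ∣ q.valuation * (p : ℤ) ^ r := ⟨b.valuation, by linarith⟩
  have h4 : q.valuation * (p : ℤ) ^ r = 0 := Int.eq_zero_of_dvd_of_natAbs_lt_natAbs h3 (by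
    rw [Int.natAbs_pow, Int.natAbs_natCast]; exact_mod_cast hn)
  have h5 : q.valuation = 0 := (mul_eq_zero.1 h4).resolve_right
    (pow_ne_zero r (Int.natCast_ne_zero.2 hp.out.ne_zero))
  exact hq1 (by rw [Padic.norm_eq_zpow_neg_valuation hq, h5, neg_zero, zpow_zero])

/-- **The extension does not split.** -/
theorem not_split_kummerRep (hx : IsKummerSystem q x) (hq : q ≠ 0) (hq1 : ‖q‖ ≠ 1) :
    ¬ ∃ v : Fin 2 → ℚ_[p], v 1 ≠ 0 ∧ ∀ σ, ∃ r : ℚ_[p], kummerRep hx hq σ *ᵥ v = r • v := by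
  rintro ⟨v, hv, h⟩
  refine kummer_not_coboundary hx hq hq1 ⟨-v 0 / v 1, fun σ => ?_⟩
  obtain ⟨r, hr⟩ := h σ
  have h1 := congrFun hr 1
  have h0 := congrFun hr 0
  simp [kummerRep, Matrix.mulVec, dotProduct, Fin.sum_univ_two] at h0 h1
  have hr1 : r = 1 := mul_right_cancel₀ hv (by linear_combination -h1)
  rw [hr1, one_mul] at h0
  field_simp
  linear_combination h0

end FA.PadicExt
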