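import Fermat.Agent.PadicExtensions.Kummer
import Fermat.Agent.PadicCharacters.Main
import Fermat.Agent.PadicHodge.Examples
import Mathlib.RingTheory.WittVector.Complete

/-!
# Extensions of `ℚ_p` by itself

The continuous homomorphisms of the Galois group to `ℚ_p` are the combinations of the degree on
the roots of unity of order prime to `p` and of `log χ`; the extension is de Rham exactly when the
second coefficient vanishes.
-/

set_option autoImplicit false
set_option linter.unusedSectionVars false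

noncomputable section

open Finset UniformSpace FA.TateSen FA.BDR FA.Sen FA.PadicHodge FA.PadicChar NormedSpace
open scoped Topology Matrix

namespace FA.PadicExt

variable {p : ℕ} [hp : Fact p.Prime]

local notation "Cp" => ℂ_[p]
local notation "Ω" => PadicAlgCl p
local notation "G" => PadicAlgCl p ≃ₐ[ℚ_[p]] PadicAlgCl p
local notation "ι" => algebraMap (BPlus p) (BField p)

theorem natCast_eq_of_frobenius_pow {K a b : ℕ} (hK : 0 < K) {z : Ω}
    (hz : IsPrimitiveRoot z (ordUr p K)) (h : z ^ p ^ a = z ^ p ^ b) : (a : ZMod K) = b := by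
  rcases Nat.eq_or_lt_of_le hK with h1 | h2
  · subst h1; exact Subsingleton.elim _ _
  have hred : ∀ a, z ^ p ^ a = z ^ p ^ (a % K) := fun a => by
    conv_lhs => rw [← Nat.mod_add_div a K]
    generalize a / K = i
    induction i with
    | zero => rw [mul_zero, add_zero]
    | succ i ih =>
      rw [mul_add, mul_one, ← add_assoc, pow_add, pow_mul, ih, ← pow_mul, mul_comm, pow_mul,
        pow_ordUr_succ hz.pow_eq_one]
  have hlt : ∀ i < K, p ^ i < ordUr p K := fun i hi => by
    obtain ⟨K, rfl⟩ := Nat.exists_eq_add_of_le' (show 1 ≤ K by omega)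
    refine (Nat.pow_le_pow_right hp.out.pos (Nat.le_of_lt_succ hi)).trans_lt ?_
    have h4 : 2 ≤ p ^ K := hp.out.two_le.trans (Nat.le_self_pow (by omega) p)
    have h5 : p ^ K * 2 ≤ p ^ K * p := Nat.mul_le_mul_left _ hp.out.two_le
    rw [ordUr, pow_succ]
    omega
  rw [hred a, hred b] at h
  rw [ZMod.natCast_eq_natCast_iff, Nat.ModEq]
  exact Nat.pow_right_injective hp.out.two_le
    (hz.pow_inj (hlt _ (Nat.mod_lt _ hK)) (hlt _ (Nat.mod_lt _ hK)) h)

theorem exists_degree (σ : G) : ∃ c : ℤ_[p], ∀ (n : ℕ) (z : Ω),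
    z ^ ordUr p (p ^ n) = 1 → σ z = z ^ p ^ (c.toZModPow n).val := by
  choose a ha using fun n => exists_pow_action σ (pow_pos hp.out.pos n : 0 < p ^ n)
  obtain ⟨c, hc⟩ := exists_padicInt_of_compat a fun n => by
    obtain ⟨z, hz⟩ := exists_primitive_ur (p := p) (ordUr_pos (p := p) (pow_pos hp.out.pos n))
    refine natCast_eq_of_frobenius_pow (pow_pos hp.out.pos n) hz ?_
    obtain ⟨e, he⟩ := ordUr_dvd (p := p) (pow_dvd_pow p n.le_succ)
    rw [← ha n z hz.pow_eq_one, ← ha (n + 1) z (by rw [he, pow_mul, hz.pow_eq_one, one_pow])]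
  refine ⟨c, fun n z hz => ?_⟩
  have : NeZero (p ^ n) := ⟨pow_ne_zero n hp.out.ne_zero⟩
  rw [hc, ha n z hz, ZMod.val_natCast]
  conv_lhs => rw [← Nat.mod_add_div (a n) (p ^ n)]
  generalize a n / p ^ n = i
  induction i with
  | zero => rw [mul_zero, add_zero]
  | succ i ih =>
    rw [mul_add, mul_one, ← add_assoc, pow_add, pow_mul, ih, ← pow_mul, mul_comm, pow_mul,
      pow_ordUr_succ hz]

/-- The degree of an automorphism on the roots of unity of order prime to `p`. -/
def degree (σ : G) : ℤ_[p] := (exists_degree σ).choose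

theorem degree_spec (σ : G) {n : ℕ} {z : Ω} (hz : z ^ ordUr p (p ^ n) = 1) :
    σ z = z ^ p ^ ((degree σ).toZModPow n).val :=
  (exists_degree σ).choose_spec n z hz

theorem toZModPow_degree {σ : G} {n a : ℕ}
    (h : ∀ z : Ω, z ^ ordUr p (p ^ n) = 1 → σ z = z ^ p ^ a) :
    (degree σ).toZModPow n = a := by
  have : NeZero (p ^ n) := ⟨pow_ne_zero n hp.out.ne_zero⟩
  obtain ⟨z, hz⟩ := exists_primitive_ur (p := p) (ordUr_pos (p := p) (pow_pos hp.out.pos n))
  have h1 := natCast_eq_of_frobenius_pow (pow_pos hp.out.pos n) hz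
    ((degree_spec σ hz.pow_eq_one).symm.trans (h z hz.pow_eq_one))
  rwa [ZMod.natCast_val, ZMod.cast_id] at h1

theorem degree_mul (σ τ : G) : degree (σ * τ) = degree σ + degree τ :=
  PadicInt.ext_of_toZModPow.1 fun n => by
    have : NeZero (p ^ n) := ⟨pow_ne_zero n hp.out.ne_zero⟩
    rw [toZModPow_degree (a := ((degree σ).toZModPow n).val + ((degree τ).toZModPow n).val)
      fun z hz => by
        rw [AlgEquiv.mul_apply, degree_spec τ hz, map_pow, degree_spec σ hz, ← pow_mul, ← pow_add],
      Nat.cast_add, ZMod.natCast_val, ZMod.natCast_val, ZMod.cast_id, ZMod.cast_id, map_add]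

theorem degree_inertia {σ : G} (hσ : σ ∈ inertiaGal p) : degree σ = 0 :=
  PadicInt.ext_of_toZModPow.1 fun n => by
    rw [toZModPow_degree (a := 0) fun z hz => by
      rw [pow_zero, pow_one]
      exact mem_inertiaGal.1 hσ _ z (not_dvd_ordUr (pow_pos hp.out.pos n)) hz, map_zero,
      Nat.cast_zero]

theorem degree_frobenius {φ : G}
    (hφ : ∀ (N : ℕ) (z : Ω), ¬ p ∣ N → z ^ N = 1 → φ z = z ^ p) : degree φ = 1 :=
  PadicInt.ext_of_toZModPow.1 fun n => by
    rw [toZModPow_degree (a := 1) fun z hz => by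
      rw [pow_one]; exact hφ _ z (not_dvd_ordUr (pow_pos hp.out.pos n)) hz, map_one, Nat.cast_one]

theorem continuous_degree : Continuous (degree (p := p)) := by
  rw [continuous_iff_continuousAt]
  intro σ
  rw [ContinuousAt, Metric.tendsto_nhds]
  intro ε hε
  obtain ⟨n, hn⟩ := exists_pow_lt_of_lt_one hε
    (inv_lt_one_of_one_lt₀ (Nat.one_lt_cast.2 hp.out.one_lt : (1 : ℝ) < p))
  obtain ⟨z, hz⟩ := exists_primitive_ur (p := p) (ordUr_pos (p := p) (pow_pos hp.out.pos n))
  have : NeZero (p ^ n) := ⟨pow_ne_zero n hp.out.ne_zero⟩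
  filter_upwards [eventually_apply_eq σ z] with τ hτ
  have h3 := natCast_eq_of_frobenius_pow (pow_pos hp.out.pos n) hz
    ((degree_spec τ hz.pow_eq_one).symm.trans (hτ.trans (degree_spec σ hz.pow_eq_one)))
  rw [ZMod.natCast_val, ZMod.natCast_val, ZMod.cast_id, ZMod.cast_id, ← sub_eq_zero, ← map_sub,
    ← RingHom.mem_ker, PadicInt.ker_toZModPow, ← PadicInt.norm_le_pow_iff_mem_span_pow] at h3
  rw [dist_eq_norm]
  refine h3.trans_lt ?_
  rwa [zpow_neg, zpow_natCast, ← inv_pow]

/-- A homomorphism trivial on inertia and at the Frobenius is trivial. -/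
theorem eq_zero_of_unramified {u : G → ℚ_[p]} (hu : Continuous u)
    (hadd : ∀ σ τ, u (σ * τ) = u σ + u τ) (hI : ∀ σ ∈ inertiaGal p, u σ = 0) {φ : G}
    (hφ : ∀ (N : ℕ) (z : Ω), ¬ p ∣ N → z ^ N = 1 → φ z = z ^ p) (hφ0 : u φ = 0) (σ : G) :
    u σ = 0 := by
  rw [← norm_le_zero_iff]
  refine le_of_forall_pos_le_add fun ε hε => ?_
  rw [zero_add]
  obtain ⟨k, hk⟩ := exists_urGal_subset (isOpen_lt hu.norm continuous_const) fun τ hτ => by
    show ‖u τ‖ < ε
    rw [hI τ hτ, norm_zero]
    exact hε
  obtain ⟨a, ha⟩ := exists_pow_frobenius_mem hφ σ k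
  have h1 : u 1 = 0 := by simpa using hadd 1 1
  have hpow : u (φ ^ a) = 0 := by
    clear ha
    induction a with
    | zero => rw [pow_zero, h1]
    | succ a ih => rw [pow_succ, hadd, ih, hφ0, add_zero]
  have h2 := hadd (φ ^ a) ((φ ^ a)⁻¹ * σ)
  rw [mul_inv_cancel_left, hpow, zero_add] at h2
  rw [h2]
  exact (hk _ ha : ‖u _‖ < ε).le

theorem eq_of_exp_eq {x y : ℚ_[p]} (hx : ‖x‖ ≤ rad2 p) (hy : ‖y‖ ≤ rad2 p)
    (h : exp x = exp y) : x = y := by
  have h3 : exp (x - y) = 1 := by
    rw [sub_eq_add_neg, exp_add_small (Commute.all _ _) hx (by rwa [norm_neg]), h,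
      exp_neg_mul_self hy]
  have hz : ‖x - y‖ ≤ rad2 p := (norm_sub_le_ultra _ _).trans (max_le hx hy)
  refine sub_eq_zero.1 (eq_of_exp_smul_eq (p := p) (y := (0 : ℚ_[p])) 0 fun i _ => ?_)
  rw [smul_zero, exp_zero, ← Nat.cast_pow, Nat.cast_smul_eq_nsmul, exp_nsmul_small hz, h3, one_pow]

theorem logChi_congr {σ τ : G} (h : chi p σ = chi p τ) : logChi p σ = logChi p τ := by
  simp only [logChi, h]

/-- The coefficient of `log χ` of a homomorphism. -/
theorem exists_log_coeff {a : G → ℚ_[p]} (ha : Continuous a)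
    (hadd : ∀ σ τ, a (σ * τ) = a σ + a τ) :
    ∃ s : ℚ_[p], ∀ σ ∈ inertiaGal p, a σ = s * logChi p σ := by
  obtain ⟨B, hB⟩ := (isCompact_range ha.norm).bddAbove
  obtain ⟨r, hr⟩ := pow_unbounded_of_one_lt (B * (p : ℝ) ^ 2)
    (Nat.one_lt_cast.2 hp.out.one_lt : (1 : ℝ) < p)
  have hpr : (0 : ℝ) < (p : ℝ) ^ r := pow_pos (Nat.cast_pos.2 hp.out.pos) r
  set c : ℚ_[p] := (p : ℚ_[p]) ^ r
  have hc : c ≠ 0 := pow_ne_zero r (Nat.cast_ne_zero.2 hp.out.ne_zero)
  have hsmall : ∀ σ, ‖c * a σ‖ ≤ rad2 p := fun σ => by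
    rw [norm_mul, norm_pow, Padic.norm_p, inv_pow, rad2, inv_mul_le_iff₀ hpr,
      ← div_eq_mul_inv, le_div_iff₀ (pow_pos (Nat.cast_pos.2 hp.out.pos) 2)]
    exact (mul_le_mul_of_nonneg_right (hB ⟨σ, rfl⟩) (by positivity)).trans hr.le
  have ha1 : a 1 = 0 := by simpa using hadd 1 1
  set η : G →* ℚ_[p] :=
    { toFun := fun σ => exp (c * a σ)
      map_one' := by rw [ha1, mul_zero, exp_zero]
      map_mul' := fun σ τ => by
        rw [hadd, mul_add, exp_add_small (Commute.all _ _) (hsmall σ) (hsmall τ)] }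
  have hη : Continuous η := by
    refine continuous_iff_continuousAt.2 fun σ => Metric.tendsto_nhds.2 fun ε hε => ?_
    have hcont : Continuous fun τ => c * a τ := continuous_const.mul ha
    filter_upwards [Metric.tendsto_nhds.1 (hcont.tendsto σ) ε hε] with τ hτ
    rw [dist_eq_norm] at hτ ⊢
    have hd : ‖c * a τ - c * a σ‖ ≤ rad2 p :=
      (norm_sub_le_ultra _ _).trans (max_le (hsmall τ) (hsmall σ))
    show ‖exp (c * a τ) - exp (c * a σ)‖ < ε
    have e : exp (c * a τ) - exp (c * a σ) =
        exp (c * a σ) * (exp (c * a τ - c * a σ) - 1) := by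
      rw [mul_sub, mul_one, ← exp_add_small (Commute.all _ _) (hsmall σ) hd, add_sub_cancel]
    rw [e, norm_mul]
    refine lt_of_le_of_lt (mul_le_of_le_one_left (norm_nonneg _) ?_)
      ((norm_exp_sub_one_le hd).trans_lt hτ)
    rw [show exp (c * a σ) = (exp (c * a σ) - 1) + 1 by ring]
    exact (IsUltrametricDist.norm_add_le_max _ _).trans (max_le
      ((norm_exp_sub_one_le (hsmall σ)).trans ((hsmall σ).trans rad2_le_one)) norm_one.le)
  obtain ⟨s, n, -, hn⟩ := exists_weight hη
  refine ⟨s / c, fun σ hσ => ?_⟩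
  have := levelGal_normal (p := p) n
  have := (levelGal p n).quotient_finite_of_isOpen (isOpen_levelGal n)
  have : (levelGal p n).FiniteIndex := Subgroup.finiteIndex_of_finite_quotient
  set N := (levelGal p n).index
  obtain ⟨hs, he⟩ := hn _ ((levelGal p n).pow_index_mem σ)
  rw [cycPart_inertia hη (pow_mem hσ N)] at he
  have h1 := eq_of_exp_eq (hsmall _) hs he
  have hpow : ∀ i : ℕ, a (σ ^ i) = i * a σ := fun i => by
    induction i with
    | zero => rw [pow_zero, ha1, Nat.cast_zero, zero_mul]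
    | succ i ih => rw [pow_succ, hadd, ih, Nat.cast_succ, add_one_mul]
  rw [hpow, logChi_pow] at h1
  have hN : (N : ℚ_[p]) ≠ 0 := Nat.cast_ne_zero.2 Subgroup.FiniteIndex.index_ne_zero
  rw [div_mul_eq_mul_div, eq_div_iff hc]
  exact mul_left_cancel₀ hN (by linear_combination h1)

/-- **A homomorphism to `ℚ_p` is a combination of the degree and `log χ`.** -/
theorem exists_degree_log {a : G → ℚ_[p]} (ha : Continuous a)
    (hadd : ∀ σ τ, a (σ * τ) = a σ + a τ) :
    ∃ α s : ℚ_[p], ∀ σ, a σ = α * (degree σ : ℚ_[p]) + s * logChi p σ := by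
  obtain ⟨s, hs⟩ := exists_log_coeff ha hadd
  obtain ⟨φ, hφ1, hφ⟩ := exists_frobenius (p := p)
  refine ⟨a φ - s * logChi p φ, s, fun σ => ?_⟩
  have h := eq_zero_of_unramified
    (u := fun σ => a σ - ((a φ - s * logChi p φ) * (degree σ : ℚ_[p]) + s * logChi p σ))
    (ha.sub ((continuous_const.mul (continuous_subtype_val.comp continuous_degree)).add
      (continuous_const.mul continuous_logChi)))
    (fun σ τ => by rw [hadd, degree_mul, PadicInt.coe_add, logChi_mul]; ring)
    (fun τ hτ => by rw [hs τ hτ, degree_inertia hτ, PadicInt.coe_zero]; ring)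
    hφ (by rw [degree_frobenius hφ, PadicInt.coe_one]; ring) σ
  exact sub_eq_zero.1 h

theorem degree_log_unique {α s α' s' : ℚ_[p]}
    (h : ∀ σ : G, α * (degree σ : ℚ_[p]) + s * logChi p σ =
      α' * (degree σ : ℚ_[p]) + s' * logChi p σ) : α = α' ∧ s = s' := by
  obtain ⟨γ, hγ⟩ := exists_gen (p := p) (m := 2) le_rfl
  have h1 := h (inertiaLift γ)
  rw [degree_inertia (inertiaLift_mem γ), PadicInt.coe_zero, mul_zero, mul_zero, zero_add, zero_add,
    logChi_congr (chi_inertiaLift γ)] at h1
  obtain rfl := mul_right_cancel₀ (logChi_gen_ne_zero hγ) h1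
  obtain ⟨φ, -, hφ⟩ := exists_frobenius (p := p)
  have h2 := h φ
  rw [degree_frobenius hφ, PadicInt.coe_one, mul_one, mul_one] at h2
  exact ⟨add_right_cancel h2, rfl⟩

/-- Successive approximation of a solution of `φ y - y = 1`. -/
theorem exists_witt_artinSchreier :
    ∃ y : WittVector p (KBar p), WittVector.frobenius y = y + 1 := by
  have hstep : ∀ (n : ℕ) (y : WittVector p (KBar p)),
      (p : WittVector p (KBar p)) ^ n ∣ WittVector.frobenius y - y - 1 →
        ∃ y', (p : WittVector p (KBar p)) ^ (n + 1) ∣ WittVector.frobenius y' - y' - 1 ∧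
          (p : WittVector p (KBar p)) ^ n ∣ y' - y := by
    rintro n y ⟨z, hz⟩
    obtain ⟨w, hw⟩ : ∃ w : KBar p, w ^ p - w + z.coeff 0 = 0 := by
      have hlow : (Polynomial.C (z.coeff 0) - Polynomial.X : Polynomial (KBar p)).degree <
          (p : WithBot ℕ) := lt_of_le_of_lt (Polynomial.degree_sub_le _ _)
        (max_lt (lt_of_le_of_lt Polynomial.degree_C_le (by exact_mod_cast hp.out.pos))
          (lt_of_le_of_lt Polynomial.degree_X_le (by exact_mod_cast hp.out.one_lt)))
      have hdeg : (Polynomial.X ^ p + (Polynomial.C (z.coeff 0) - Polynomial.X) :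
          Polynomial (KBar p)).degree ≠ 0 := by
        rw [Polynomial.degree_add_eq_left_of_degree_lt
          (by rw [Polynomial.degree_X_pow]; exact hlow),
          Polynomial.degree_X_pow]
        exact_mod_cast hp.out.ne_zero
      obtain ⟨w, hw⟩ := IsAlgClosed.exists_root _ hdeg
      refine ⟨w, ?_⟩
      rw [Polynomial.IsRoot, Polynomial.eval_add, Polynomial.eval_pow, Polynomial.eval_X,
        Polynomial.eval_sub, Polynomial.eval_C, Polynomial.eval_X] at hw
      linear_combination hw
    set e := WittVector.teichmuller p w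
    refine ⟨y + (p : WittVector p (KBar p)) ^ n * e, ?_, by
      rw [add_sub_cancel_left]; exact dvd_mul_right _ _⟩
    have hd : (p : WittVector p (KBar p)) ∣ z + (WittVector.frobenius e - e) := by
      rw [← Ideal.mem_span_singleton, WittVector.mem_span_p_iff_coeff_zero_eq_zero]
      show WittVector.constantCoeff (z + (WittVector.frobenius e - e)) = 0
      rw [map_add, map_sub, WittVector.constantCoeff_apply, WittVector.constantCoeff_apply,
        WittVector.constantCoeff_apply, WittVector.coeff_frobenius_charP,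
        WittVector.teichmuller_coeff_zero]
      linear_combination hw
    rw [map_add, map_mul, map_pow, map_natCast, pow_succ,
      show WittVector.frobenius y + (p : WittVector p (KBar p)) ^ n * WittVector.frobenius e -
          (y + (p : WittVector p (KBar p)) ^ n * e) - 1 =
        (p : WittVector p (KBar p)) ^ n * (z + (WittVector.frobenius e - e)) by
        linear_combination hz]
    exact mul_dvd_mul_left _ hd
  choose! g hg hg' using hstep
  obtain ⟨Y, hY0, hYs⟩ : ∃ Y : ℕ → WittVector p (KBar p), Y 0 = 0 ∧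
      ∀ k, Y (k + 1) = g k (Y k) := ⟨fun n => Nat.rec 0 g n, rfl, fun _ => rfl⟩
  have hY : ∀ k, (p : WittVector p (KBar p)) ^ k ∣ WittVector.frobenius (Y k) - Y k - 1 :=
    fun k => by
    induction k with
    | zero => rw [pow_zero]; exact one_dvd _
    | succ k ih => rw [hYs]; exact hg k (Y k) ih
  have hcompat : ∀ m n, m ≤ n → (p : WittVector p (KBar p)) ^ m ∣ Y n - Y m := fun m n hmn => by
    induction n, hmn using Nat.le_induction with
    | base => rw [sub_self]; exact dvd_zero _
    | succ n hn ih =>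
      rw [hYs, show g n (Y n) - Y m = (g n (Y n) - Y n) + (Y n - Y m) by ring]
      exact dvd_add ((pow_dvd_pow _ hn).trans (hg' n (Y n) (hY n))) ih
  obtain ⟨L, hL⟩ := IsPrecomplete.prec (I := Ideal.span {(p : WittVector p (KBar p))})
    inferInstance (f := Y) fun {m n} hmn => by
      rw [SModEq.sub_mem, smul_eq_mul, Ideal.mul_top, Ideal.span_singleton_pow,
        Ideal.mem_span_singleton]
      exact dvd_sub_comm.1 (hcompat m n hmn)
  refine ⟨L, sub_eq_zero.1 (IsHausdorff.haus (I := Ideal.span {(p : WittVector p (KBar p))})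
    inferInstance _ fun n => ?_)⟩
  rw [SModEq.sub_mem, sub_zero, smul_eq_mul, Ideal.mul_top, Ideal.span_singleton_pow,
    Ideal.mem_span_singleton]
  have h1 := hL n
  rw [SModEq.sub_mem, smul_eq_mul, Ideal.mul_top, Ideal.span_singleton_pow,
    Ideal.mem_span_singleton] at h1
  obtain ⟨v, hv⟩ := h1
  obtain ⟨r, hr⟩ := hY n
  refine ⟨r - (WittVector.frobenius v - v), ?_⟩
  have hLv : L = Y n - (p : WittVector p (KBar p)) ^ n * v := by linear_combination -hv
  rw [hLv, map_sub, map_mul, map_pow, map_natCast]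
  linear_combination hr

/-- **The degree has a period in `B_dR⁺`.** -/
theorem exists_degree_period :
    ∃ Y : BPlus p, ∀ σ : G, σ • Y = Y + qpHom p (degree σ : ℚ_[p]) := by
  obtain ⟨φ, -, hφ⟩ := exists_frobenius (p := p)
  obtain ⟨y₀, hy₀⟩ := exists_witt_artinSchreier (p := p)
  set y := WittVector.map (kbarHom p) y₀
  have hfy : WittVector.frobenius y = y + 1 := by
    refine WittVector.ext fun n => ?_
    rw [WittVector.coeff_frobenius_charP, ← map_one (WittVector.map (kbarHom p)), ← map_add, ← hy₀,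
      WittVector.map_coeff, WittVector.map_coeff, WittVector.coeff_frobenius_charP, map_pow]
  have hpow : ∀ a : ℕ, WittVector.frobenius^[a] y = y + (a : AInf p) := fun a => by
    induction a with
    | zero => rw [Nat.cast_zero, add_zero]; rfl
    | succ a ih =>
      rw [Function.iterate_succ_apply', ih, map_add, map_natCast, hfy, Nat.cast_succ]; ring
  have hcf : ∀ a j, (WittVector.frobenius^[a] y).coeff j = y.coeff j ^ p ^ a := fun a j => by
    induction a with
    | zero => rw [pow_zero, pow_one]; rfl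
    | succ a ih =>
      rw [Function.iterate_succ_apply', WittVector.coeff_frobenius_charP, ih, ← pow_mul, ← pow_succ]
  have key : ∀ σ : G, ainfGal σ y = y + zpHom p (degree σ) := fun σ => by
    refine WittVector.ext fun j => ?_
    set m := j + 1
    choose k₀ hk₀ using fun i => exists_kbar_action hφ (y₀.coeff i)
    set k := max ((range m).sup k₀) (p ^ m)
    obtain ⟨a, ha⟩ := exists_pow_frobenius_mem hφ σ k
    have hdeg : (degree σ).toZModPow m = a := toZModPow_degree fun z hz => by
      obtain ⟨e, he⟩ := ordUr_dvd (p := p)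
        (Nat.dvd_factorial (pow_pos hp.out.pos m) (le_max_right _ _ : p ^ m ≤ k))
      have hz' : z ^ ordUr p k.factorial = 1 := by rw [he, pow_mul, hz, one_pow]
      rw [← pow_frobenius_apply hφ (not_dvd_ordUr (pow_pos hp.out.pos m)) hz a]
      conv_lhs => rw [show σ = φ ^ a * ((φ ^ a)⁻¹ * σ) from (mul_inv_cancel_left _ _).symm]
      rw [AlgEquiv.mul_apply, mem_urGal.1 ha z hz']
    obtain ⟨e, he⟩ : (p : ℤ_[p]) ^ m ∣ degree σ - (a : ℤ_[p]) := by
      rw [← Ideal.mem_span_singleton, ← PadicInt.ker_toZModPow, RingHom.mem_ker, map_sub, hdeg,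
        map_natCast, sub_self]
    set T := WittVector.truncate (p := p) (R := OFlat p) m
    have hT : T (ainfGal σ y) = T (y + zpHom p (degree σ)) := by
      have e1 : T (ainfGal σ y) = T (WittVector.frobenius^[a] y) :=
        TruncatedWittVector.ext fun i => by
          rw [WittVector.coeff_truncate, WittVector.coeff_truncate, hcf]
          simp only [y, ainfGal, WittVector.map_coeff]
          exact hk₀ i k ((le_sup (mem_range.2 i.2)).trans (le_max_left _ _)) σ a ha
      have e2 : T ((p : AInf p) ^ m) = 0 := TruncatedWittVector.ext fun i => by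
        rw [WittVector.coeff_truncate, WittVector.coeff_p_pow_eq_zero p _ i.2.ne,
          TruncatedWittVector.coeff_zero]
      rw [e1, hpow, eq_add_of_sub_eq he, map_add, map_add, map_add (zpHom p), map_mul (zpHom p),
        map_pow, map_natCast (zpHom p), map_natCast (zpHom p), map_add, map_mul, e2, zero_mul,
        zero_add]
    have h3 := congrArg (fun x : TruncatedWittVector p m (OFlat p) => x.coeff ⟨j, j.lt_succ_self⟩)
      hT
    exact (WittVector.coeff_truncate _ ⟨j, j.lt_succ_self⟩).symm.trans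
      (h3.trans (WittVector.coeff_truncate _ _))
  refine ⟨toBPlus p (algebraMap _ _ y), fun σ => ?_⟩
  rw [smul_bplus_def, bplusGal_toBPlus, ainfPGal_algebraMap, key, qpHom_coe, map_add, map_add]
  rfl

/-- The extension of a homomorphism. -/
def addRep (a : G → ℚ_[p]) (σ : G) : Matrix (Fin 2) (Fin 2) ℚ_[p] := !![1, a σ; 0, 1]

theorem isQpRep_addRep {a : G → ℚ_[p]} (ha : Continuous a)
    (hadd : ∀ σ τ, a (σ * τ) = a σ + a τ) : IsQpRep p (Fin 2) (addRep a) where
  cont := continuous_pi fun i => continuous_pi fun k => by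
    fin_cases i <;> fin_cases k
    all_goals simp only [addRep]
    all_goals first
      | exact continuous_const
      | exact ha
  map_one := by
    rw [addRep, show a 1 = 0 by simpa using hadd 1 1]
    exact Matrix.one_fin_two.symm
  map_mul σ τ := by
    simp only [addRep, hadd, Matrix.mul_fin_two]
    simp [add_comm]

theorem isDeRham_addRep_degree (α : ℚ_[p]) :
    IsDeRham (addRep fun σ : G => α * (degree σ : ℚ_[p])) := by
  obtain ⟨Y, hY⟩ := exists_degree_period (p := p)
  set X : Matrix (Fin 2) (Fin 2) (BField p) := !![1, -(qpB p α * ι Y); 0, 1]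
  obtain ⟨Xu, hXu⟩ : IsUnit X := by
    rw [Matrix.isUnit_iff_isUnit_det, Matrix.det_fin_two_of, mul_one, mul_zero, sub_zero]
    exact isUnit_one
  refine ⟨Xu, fun σ => ?_⟩
  rw [hXu]
  have hσY : σ • ι Y = ι Y + qpB p (degree σ : ℚ_[p]) := by
    simp only [qpB, RingHom.comp_apply, smul_algebraMap_bfield, hY, map_add]
  ext i k
  fin_cases i <;> fin_cases k
  all_goals
    simp [X, addRep, Matrix.mul_apply, Fin.sum_univ_two, smul_mul', smul_qpB, hσY]
  all_goals ring

/-- **The extension is Hodge–Tate, or de Rham, exactly when `log χ` does not occur.** -/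
theorem addRep_iff {α s : ℚ_[p]} :
    let a := fun σ : G => α * (degree σ : ℚ_[p]) + s * logChi p σ
    (IsHodgeTate (cpRep (addRep a)) ↔ s = 0) ∧ (IsDeRham (addRep a) ↔ s = 0) := by
  intro a
  have hdR : s = 0 → IsDeRham (addRep a) := fun h => by
    simp only [a, h, zero_mul, add_zero]
    exact isDeRham_addRep_degree α
  have hHT : IsHodgeTate (cpRep (addRep a)) → s = 0 := fun h => by
    by_contra hs
    obtain ⟨Y, hY⟩ := exists_degree_period (p := p)
    set s' : Cp := algebraMap ℚ_[p] Cp s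
    set y : Cp := algebraMap ℚ_[p] Cp α * thetaPlus p Y
    obtain ⟨P, hP⟩ : IsUnit (!![s', -y; 0, 1] : Matrix (Fin 2) (Fin 2) Cp) := by
      rw [Matrix.isUnit_iff_isUnit_det, Matrix.det_fin_two_of, mul_one, mul_zero, sub_zero]
      exact ((map_ne_zero (algebraMap ℚ_[p] Cp)).2 hs).isUnit
    have hy : ∀ σ : G, gal σ (thetaPlus p Y) =
        thetaPlus p Y + algebraMap ℚ_[p] Cp (degree σ : ℚ_[p]) := fun σ => by
      rw [← thetaPlus_bplusGal, ← smul_bplus_def, hY, map_add, thetaPlus_qpHom]
    have e : FA.Sen.conj (cpRep (addRep a)) P = cpRep (unipRep (p := p)) := funext fun σ => by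
      rw [conj_eq_iff, hP]
      ext i k
      fin_cases i <;> fin_cases k
      all_goals
        simp [cpRep, addRep, unipRep, Matrix.mul_apply, Fin.sum_univ_two, galM_apply, a, s', y,
          gal_scalar, hy]
      all_goals ring
    obtain ⟨P₀, j, hP₀⟩ := h
    exact not_isHodgeTate_unipRep ⟨P⁻¹ * P₀, j, fun σ => by
      rw [← e, conj_conj, mul_inv_cancel_left]; exact hP₀ σ⟩
  exact ⟨⟨hHT, fun h => (hdR h).isHodgeTate⟩, ⟨fun h => hHT h.isHodgeTate, hdR⟩⟩

end FA.PadicExt
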